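import Fermat.Agent.RIB.Key.H90
import Fermat.Agent.RIB.Deg.Kum
import Fermat.Agent.S40.CycRam
import Fermat.Agent.S40.Defs
import Fermat.Agent.SSP.Arith1

/-!
# S40 / HK / E : block [E] of the assembly of (GeoB)  (board helper87 #2172)

* (E1) [H90]   : `RIB.Key.exists_fixed_isDiv` (helper9, landed) ; `exists_fixed_kum` is the same statement.
* (E2) [SPLIT] : `exists_split` : if every `σ ∈ I` with `χ(σ) = 1` fixes `x`, then `x = x₀ + n t` with `x₀` fixed by `I`;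
                 `actsChi_of_split` : `ActsChi x₀`, `ActsChi t` give `ActsChi x`; `eq_zero_of_fixed_of_actsChi`.
* (E4) [COSETS] : in the wild case (`σ ∈ I`, `χ(σ) = 1`, `σ x ≠ x`) : `H' := stabI A x`, `I = ⋃_{i < p} σ ^ i H'` (`wild_cosets`) and
                 `LittleRam` gives the constant `z0` of the first difference method (`exists_z0_of_littleRam`).
* (E3) [EIGEN ⟹ FUNCTION] : `T_ℓ x = a x`, `Kum m x f` ⟹ `N_α (β f) = f ^ a * h ^ m`  (`exists_hecke_rel`);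
                 `kum_hecke` : `Kum m x f → Kum m (T_ℓ x) (N_α (β f))`; `Kum.exists_eq_mul_pow` : two Kummer generators of the same class.
-/

set_option autoImplicit false
set_option linter.style.haveILetI false
set_option linter.unusedSectionVars false

noncomputable section

open AlgebraicCurve ModularCurve

namespace Fermat.Agent.S40.HK

open Fermat.Agent.RED hiding Kb
open Fermat.Agent.S24 Fermat.Agent.RED.TorsES Fermat.Agent.SS Fermat.Agent.GAL Fermat.Agent.RIB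
open Fermat.Agent.GAL.HeckeInputs

local notation "Qbar" => AlgebraicClosure ℚ

/-! ## (E2) -/

section Split

variable {J : Type*} [AddCommGroup J] [DistribMulAction GQ J]

theorem smul_zsmul_aux (τ : GQ) (z : ℤ) (t : J) : τ • (z • t) = z • (τ • t) :=
  map_zsmul (DistribSMul.toAddMonoidHom J τ) z t

theorem smul_nsmul_aux (τ : GQ) (n : ℕ) (t : J) : τ • (n • t) = n • (τ • t) :=
  map_nsmul (DistribSMul.toAddMonoidHom J τ) n t

/-- **(E2) [SPLIT]** -/
theorem exists_split {p : ℕ} [NeZero p] (hp : p.Prime) (hp2 : p ≠ 2)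
    (A : ValuationSubring Qbar) (hA : A.LiesOverPrime p) {x t : J} (hpt : p • t = 0) (ht0 : t ≠ 0)
    (ht : ActsChi p A t) (hx : ∀ τ ∈ A.inertiaSubgroupIn ℚ, ∃ k : ℕ, τ • x - x = k • t)
    (htame : ∀ σ ∈ A.inertiaSubgroupIn ℚ, cycloChar p σ = 1 → σ • x = x) :
    ∃ (n : ℕ) (x₀ : J), x = x₀ + n • t ∧ ∀ τ ∈ A.inertiaSubgroupIn ℚ, τ • x₀ = x₀ := by
  haveI : Fact p.Prime := ⟨hp⟩
  have hord : addOrderOf t = p := addOrderOf_eq_prime hpt ht0
  have hz : ∀ z : ℤ, z • t = 0 ↔ (p : ℤ) ∣ z := fun z => by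
    rw [← hord]; exact (addOrderOf_dvd_iff_zsmul_eq_zero).symm
  obtain ⟨τ₀, hτ₀, hχ₀⟩ := exists_inertia_cycloChar_ne_one hp hp2 A hA
  set c : ℕ := (cycloChar p τ₀ : ZMod p).val with hc
  have hcz : ((c : ℤ) : ZMod p) = (cycloChar p τ₀ : ZMod p) := by
    rw [hc]; simp
  have hc1 : ((c : ℤ) - 1 : ZMod p) ≠ 0 := by
    rw [hcz, sub_ne_zero]
    intro h
    exact hχ₀ (Units.ext h)
  have hc1' : ¬ (p : ℤ) ∣ (c : ℤ) - 1 := by
    intro h
    apply hc1
    have := (ZMod.intCast_zmod_eq_zero_iff_dvd ((c : ℤ) - 1) p).2 h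
    push_cast at this ⊢
    exact this
  have hτ₀t : τ₀ • t = (c : ℤ) • t := by rw [ht τ₀ hτ₀, natCast_zsmul]
  obtain ⟨k, hk⟩ := hx τ₀ hτ₀
  -- choice of `n`
  set n : ℕ := ((k : ZMod p) * ((c : ℤ) - 1 : ZMod p)⁻¹).val with hn
  have hnz : ((n : ℤ) : ZMod p) = (k : ZMod p) * ((c : ℤ) - 1 : ZMod p)⁻¹ := by
    rw [hn]; simp
  have hnk : (p : ℤ) ∣ (k : ℤ) - n * ((c : ℤ) - 1) := by
    rw [← ZMod.intCast_zmod_eq_zero_iff_dvd]
    push_cast
    have h1 : ((n : ℕ) : ZMod p) = (k : ZMod p) * ((c : ℤ) - 1 : ZMod p)⁻¹ := by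
      rw [← hnz]; simp
    rw [h1]
    push_cast at hc1 ⊢
    field_simp
    ring
  set x₀ : J := x - n • t with hx₀
  have hfix₀ : τ₀ • x₀ = x₀ := by
    have e1 : τ₀ • x = x + (k : ℤ) • t := by rw [natCast_zsmul, ← hk]; abel
    have h1 : τ₀ • x₀ - x₀ = ((k : ℤ) - n * ((c : ℤ) - 1)) • t := by
      rw [hx₀, smul_sub, smul_nsmul_aux, hτ₀t, e1, ← natCast_zsmul _ n, ← natCast_zsmul _ n]
      module
    rw [← sub_eq_zero, h1]
    exact (hz _).2 hnk
  refine ⟨n, x₀, by rw [hx₀, sub_add_cancel], fun τ hτ => ?_⟩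
  -- `τ x₀ - x₀` is a multiple of `t`
  obtain ⟨k', hk'⟩ := hx τ hτ
  set c' : ℕ := (cycloChar p τ : ZMod p).val with hc'
  have hτt : τ • t = (c' : ℤ) • t := by rw [ht τ hτ, natCast_zsmul]
  set z : ℤ := (k' : ℤ) - n * ((c' : ℤ) - 1) with hzdef
  have h1 : τ • x₀ = x₀ + z • t := by
    have e1 : τ • x = x + (k' : ℤ) • t := by rw [natCast_zsmul, ← hk']; abel
    rw [hx₀, hzdef, smul_sub, smul_nsmul_aux, hτt, e1, ← natCast_zsmul _ n, ← natCast_zsmul _ n]
    module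
  -- the commutator
  set g : GQ := τ₀⁻¹ * τ⁻¹ * τ₀ * τ with hg
  have hgI : g ∈ A.inertiaSubgroupIn ℚ :=
    mul_mem (mul_mem (mul_mem (inv_mem hτ₀) (inv_mem hτ)) hτ₀) hτ
  have hgχ : cycloChar p g = 1 := by
    rw [hg, map_mul, map_mul, map_mul, map_inv, map_inv]
    rw [mul_comm ((cycloChar p τ₀)⁻¹ * (cycloChar p τ)⁻¹), mul_assoc, mul_comm _ (cycloChar p τ),
      ← mul_assoc, ← mul_assoc]
    simp
  have hgx : g • x = x := htame g hgI hgχ
  have hgt : g • t = t := by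
    haveI : Fact (1 < p) := ⟨hp.one_lt⟩
    rw [ht g hgI, hgχ, Units.val_one, ZMod.val_one, one_nsmul]
  have hgx₀ : g • x₀ = x₀ := by rw [hx₀, smul_sub, smul_nsmul_aux, hgx, hgt]
  have hcomm : τ₀ • τ • x₀ = τ • τ₀ • x₀ := by
    have h2 : (τ * τ₀) • g • x₀ = (τ * τ₀) • x₀ := by rw [hgx₀]
    rw [smul_smul, hg] at h2
    have h3 : τ * τ₀ * (τ₀⁻¹ * τ⁻¹ * τ₀ * τ) = τ₀ * τ := by group
    rw [h3, mul_smul, mul_smul] at h2
    exact h2
  rw [hfix₀, h1, smul_add, hfix₀, smul_zsmul_aux, hτ₀t] at hcomm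
  have h4 : (z * ((c : ℤ) - 1)) • t = 0 := by
    have h5 := add_left_cancel hcomm
    have h7 : (z * ((c : ℤ) - 1)) • t = z • (c : ℤ) • t - z • t := by module
    rw [h7, h5, sub_self]
  have h6 := (hz _).1 h4
  have hpz : (p : ℤ) ∣ z :=
    ((Nat.prime_iff_prime_int.1 hp).dvd_or_dvd h6).resolve_right hc1'
  rw [h1, (hz z).2 hpz, add_zero]

theorem actsChi_add {p : ℕ} [NeZero p] {A : ValuationSubring Qbar} {x y : J}
    (hx : ActsChi p A x) (hy : ActsChi p A y) : ActsChi p A (x + y) := fun τ hτ => by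
  rw [smul_add, hx τ hτ, hy τ hτ, nsmul_add]

theorem actsChi_nsmul {p : ℕ} [NeZero p] {A : ValuationSubring Qbar} {x : J}
    (hx : ActsChi p A x) (n : ℕ) : ActsChi p A (n • x) := fun τ hτ => by
  rw [smul_nsmul_aux, hx τ hτ, nsmul_left_comm]

/-! ## (E4) -/

/-- the stabiliser of `x` in the inertia group -/
def stabI (A : ValuationSubring Qbar) (x : J) : Subgroup GQ :=
  A.inertiaSubgroupIn ℚ ⊓ MulAction.stabilizer GQ x

theorem mem_stabI {A : ValuationSubring Qbar} {x : J} {g : GQ} :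
    g ∈ stabI A x ↔ g ∈ A.inertiaSubgroupIn ℚ ∧ g • x = x := Iff.rfl

theorem stabI_le (A : ValuationSubring Qbar) (x : J) : stabI A x ≤ A.inertiaSubgroupIn ℚ :=
  inf_le_left

/-- **(E4) [COSETS]** -/
theorem wild_cosets {p : ℕ} [NeZero p] (hp : p.Prime) (A : ValuationSubring Qbar) {x t : J}
    (hpt : p • t = 0) (ht0 : t ≠ 0) (ht : ActsChi p A t)
    (hx : ∀ τ ∈ A.inertiaSubgroupIn ℚ, ∃ k : ℕ, τ • x - x = k • t) {σ : GQ}
    (hσ : σ ∈ A.inertiaSubgroupIn ℚ) (hχ : cycloChar p σ = 1) (hσx : σ • x ≠ x) :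
    (∀ g ∈ A.inertiaSubgroupIn ℚ, ∃ i < p, ∃ h ∈ stabI A x, g = σ ^ i * h) ∧
      ∀ i, 0 < i → i < p → σ ^ i ∉ stabI A x := by
  haveI : Fact p.Prime := ⟨hp⟩
  haveI : Fact (1 < p) := ⟨hp.one_lt⟩
  have hord : addOrderOf t = p := addOrderOf_eq_prime hpt ht0
  have hz : ∀ z : ℤ, z • t = 0 ↔ (p : ℤ) ∣ z := fun z => by
    rw [← hord]; exact (addOrderOf_dvd_iff_zsmul_eq_zero).symm
  have hσt : σ • t = t := by rw [ht σ hσ, hχ, Units.val_one, ZMod.val_one, one_nsmul]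
  obtain ⟨k, hk⟩ := hx σ hσ
  have hσx' : σ • x = x + (k : ℤ) • t := by rw [natCast_zsmul, ← hk]; abel
  have hk0 : ¬ (p : ℤ) ∣ (k : ℤ) := by
    intro h
    apply hσx
    rw [hσx', (hz _).2 h, add_zero]
  have hpow : ∀ i : ℕ, σ ^ i • x = x + ((i : ℤ) * k) • t := by
    intro i
    induction i with
    | zero => simp
    | succ i ih =>
      rw [pow_succ', mul_smul, ih, smul_add, smul_zsmul_aux, hσt, hσx']
      push_cast
      module
  have hkz : ((k : ℤ) : ZMod p) ≠ 0 := by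
    rw [Ne, ZMod.intCast_zmod_eq_zero_iff_dvd]
    exact hk0
  refine ⟨fun g hg => ?_, fun i hi0 hip hmem => ?_⟩
  · obtain ⟨kg, hkg⟩ := hx g hg
    have hgx : g • x = x + (kg : ℤ) • t := by rw [natCast_zsmul, ← hkg]; abel
    set i : ℕ := ((kg : ZMod p) * ((k : ℤ) : ZMod p)⁻¹).val with hi
    have hiz : ((i : ℕ) : ZMod p) = (kg : ZMod p) * ((k : ℤ) : ZMod p)⁻¹ := by
      rw [hi]; simp
    have hdvd : (p : ℤ) ∣ (kg : ℤ) - (i : ℤ) * k := by
      rw [← ZMod.intCast_zmod_eq_zero_iff_dvd]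
      push_cast
      rw [hiz]
      push_cast at hkz ⊢
      field_simp
      ring
    have heq : g • x = σ ^ i • x := by
      rw [hgx, hpow, ← sub_eq_zero]
      have : x + (kg : ℤ) • t - (x + ((i : ℤ) * k) • t) = ((kg : ℤ) - (i : ℤ) * k) • t := by module
      rw [this]
      exact (hz _).2 hdvd
    have hmemI : (σ ^ i)⁻¹ * g ∈ A.inertiaSubgroupIn ℚ := mul_mem (inv_mem (pow_mem hσ i)) hg
    refine ⟨i, ZMod.val_lt _, (σ ^ i)⁻¹ * g, ⟨hmemI, ?_⟩, by group⟩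
    show ((σ ^ i)⁻¹ * g) • x = x
    rw [mul_smul, heq, inv_smul_smul]
  · have h1 : σ ^ i • x = x := hmem.2
    rw [hpow, add_eq_left, hz] at h1
    rcases (Nat.prime_iff_prime_int.1 hp).dvd_or_dvd h1 with h | h
    · have := Int.le_of_dvd (by exact_mod_cast hi0) h
      omega
    · exact hk0 h

/-- `LittleRam` gives the constant `z0` of the first difference method. -/
theorem exists_z0_of_littleRam {p : ℕ} [NeZero p] (hp : p.Prime) (hp2 : p ≠ 2)
    (A : ValuationSubring Qbar) (hA : A.LiesOverPrime p) {x t : J}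
    (hpt : p • t = 0) (ht0 : t ≠ 0) (ht : ActsChi p A t)
    (hx : ∀ τ ∈ A.inertiaSubgroupIn ℚ, ∃ k : ℕ, τ • x - x = k • t) (hL : LittleRam p A x)
    {σ : GQ} (hσ : σ ∈ A.inertiaSubgroupIn ℚ) (hχ : cycloChar p σ = 1) (hσx : σ • x ≠ x) :
    ∃ z0 : Qbar, SSP.IsZ0 A p (stabI A x) σ z0 := by
  obtain ⟨hcos, hdist⟩ := wild_cosets hp A hpt ht0 ht hx hσ hχ hσx
  obtain ⟨b, hbA, hbfix, hb⟩ := hL σ hσ hχ hσx
  obtain ⟨ζ, hζ⟩ := HasEnoughRootsOfUnity.exists_primitiveRoot Qbar p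
  exact SSP.exists_z0_aux hp hp2 hA (stabI A x) (stabI_le A x) hσ hcos hdist hbA
    (fun h hh => hbfix h hh.1 hh.2) hζ (hb ζ hζ.pow_eq_one (hζ.ne_one hp.one_lt))

end Split

/-! ## (E3) -/

section Eigen

variable {N : ℕ} [NeZero N]

theorem kum_zsmul {K F : Type*} [Field K] [Field F] [Algebra K F] {m : ℕ} {x : Pic0 K F} {f : F}
    (hx : Kum m x f) (a : ℤ) : Kum m (a • x) (f ^ a) := by
  obtain ⟨n, rfl | rfl⟩ := a.eq_nat_or_neg
  · rw [natCast_zsmul, zpow_natCast]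
    exact hx.nsmul n
  · rw [neg_zsmul, natCast_zsmul, zpow_neg, zpow_natCast]
    exact (hx.nsmul n).neg

/-- two Kummer generators of the same class differ by an `m`-th power. -/
theorem exists_eq_mul_pow_of_kum {m : ℕ} (hm : m ≠ 0) {x : JZero N} {f g : FN N}
    (hf : Kum m x f) (hg : Kum m x g) : ∃ h : FN N, h ≠ 0 ∧ g = f * h ^ m := by
  obtain ⟨D, hD, hDf⟩ := hf
  obtain ⟨E, hE, hEg⟩ := hg
  have h0 : Pic0.mk (E - D) = 0 := by rw [TorsES.mk_sub', hD, hE, sub_self]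
  rw [TorsES.mk_eq_zero_iff] at h0
  obtain ⟨u, hu0, hu⟩ := h0
  obtain ⟨c, hc⟩ := S36.Kum.exists_eq_mul_pow_of_ord_eq N hm hEg.1
    (mul_ne_zero hDf.1 (pow_ne_zero m hu0)) (fun P => by
      rw [P.ord_mul hDf.1 (pow_ne_zero m hu0), S24.Place.ord_pow, ← hEg.2 P, ← hDf.2 P, ← hu P]
      simp only [AddSubgroupClass.coe_sub, Finsupp.sub_apply]
      ring)
  have hc0 : algebraMap Kb (FN N) c ≠ 0 := by
    intro h
    rw [h, zero_pow hm, mul_zero] at hc
    exact hEg.1 hc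
  exact ⟨u * algebraMap Kb _ c, mul_ne_zero hu0 hc0, by rw [hc, mul_pow, mul_assoc]⟩

/-- the Hecke operator on Kummer generators -/
theorem kum_hecke (l : Nat.Primes) {m : ℕ} {x : JZero N} {f : FN N} (hf : Kum m x f) :
    haveI : NeZero (l : ℕ) := ⟨l.2.ne_zero⟩
    Kum m (heckeOperatorBar N l x)
      (TorsES.normAlong (heckeAlphaBar Kb N l) (heckeBetaBar Kb N l f)) := by
  haveI : NeZero (l : ℕ) := ⟨l.2.ne_zero⟩
  haveI : HasPrincipalDivisors Kb (FN (N * l)) :=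
    (GAL.HeckeInputs.isFiniteParam_jF (N * l)).hasPrincipalDivisors
  have h1 := (hf.pull (heckeBetaBar Kb N l) (heckeBetaBarIntegral N l)
    (fundamentalIdentityAlong_beta N l)).push (heckeAlphaBar Kb N l) (heckeAlphaBarIntegral N l)
    (finiteAlong_alpha N l) (normFormulaAlong_alpha N l)
  have h2 : heckeOperatorBar N l x = pushPic0 (heckeAlphaBar Kb N l) (heckeAlphaBarIntegral N l)
      (finiteAlong_alpha N l) (normFormulaAlong_alpha N l)
      (pullPic0 (heckeBetaBar Kb N l) (heckeBetaBarIntegral N l)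
        (fundamentalIdentityAlong_beta N l) x) := by
    show heckeOperatorAlong (AlgebraicClosure ℚ) N l x = _
    rw [heckeOperatorAlong_eq' N l, heckePic0Bar]
    exact correspondence_eq_push_pull _ _ _ _ _ _ _ x
  rw [h2]
  exact h1

/-- **(E3)** : an eigen-class gives a multiplicative relation for its Kummer generator. -/
theorem exists_hecke_rel (l : Nat.Primes) {m : ℕ} (hm : m ≠ 0) {x : JZero N} {a : ℤ}
    (hx : heckeOperatorBar N l x = a • x) {f : FN N} (hf : Kum m x f) :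
    haveI : NeZero (l : ℕ) := ⟨l.2.ne_zero⟩
    ∃ h : FN N, h ≠ 0 ∧
      TorsES.normAlong (heckeAlphaBar Kb N l) (heckeBetaBar Kb N l f) = f ^ a * h ^ m := by
  have h1 := kum_hecke l hf
  rw [hx] at h1
  exact exists_eq_mul_pow_of_kum hm (kum_zsmul hf a) h1

end Eigen

end Fermat.Agent.S40.HK
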