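import Fermat.Agent.S40.HK.Cong
import Fermat.Agent.S40.Geo.EisAbs

/-!
# S40 / HK : `T_m^×` is a `S40.HeckeOp` for `SS.twoRed`
-/

set_option autoImplicit false
set_option linter.unusedSectionVars false

noncomputable section

open ModularCurve AlgebraicCurve

namespace Fermat.Agent.S40.HK

open Fermat.Agent.RED hiding Kb
open Fermat.Agent.RED.ES Fermat.Agent.RED.Gauss Fermat.Agent.S24 Fermat.Agent.SS
open Fermat.Agent.RED.Cusp (Fb jb)

/-- `T_m^×` as a monoid homomorphism. -/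
def TXhom (N m : ℕ) [NeZero N] [NeZero m] : FN N →* FN N where
  toFun := TX N m
  map_one' := TX_one N m
  map_mul' := TX_mul N m

theorem TXhom_apply (N m : ℕ) [NeZero N] [NeZero m] (u : FN N) : TXhom N m u = TX N m u := rfl

variable {M q m : ℕ} [NeZero M] [hq : Fact q.Prime] [NeZero m] (hqM : ¬ q ∣ M)
variable {A : ValuationSubring Kb} {k : Type*} [Field k]
variable (π : A →+* k) [CharP k q] [IsAlgClosed k] (hπ : Function.Surjective π)

theorem mem_A_of_mem_R₁ {c : Kb} (h : algebraMap Kb (FN (M * q)) c ∈ (twoRed hqM π hπ).R₁.O) :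
    c ∈ A := by
  have : c ∈ (twoRed hqM π hπ).A := h
  rwa [twoRed_A] at this

theorem mem_A_of_mem_R₂ {c : Kb} (h : algebraMap Kb (FN (M * q)) c ∈ (twoRed hqM π hπ).R₂.O) :
    c ∈ A :=
  mem_A_of_mem_R₁ hqM π hπ (((twoRed hqM π hπ).const_mem c).2 h)

/-- **the formal properties of `T_m^×`** in the shape of `S40/Geo/EisAbs.lean`. -/
theorem heckeOp_TX (hm : m.Prime) (hmM : ¬ m ∣ M * q) :
    HeckeOp (twoRed hqM π hπ) (TXhom (M * q) m) (m + 1) where
  const c := by rw [TXhom_apply, TX_algebraMap hm hmM, map_pow]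
  at₁ :=
    { unit := fun u hu => val₁_TX_eq_one hqM π hπ hm hmM hu
      cong := by
        rintro c u hc ⟨ε, hε, hu⟩
        have hcA : c ∈ A := mem_A_of_mem_R₁ hqM π hπ
          (((twoRed hqM π hπ).R₁.O.valuation_le_one_iff _).1 hc.le)
        obtain ⟨hεO, hε0⟩ := (val_lt_one_iff _).1 hε
        obtain ⟨z', hz', h1, h2⟩ := TX_cong₁ hqM π hπ hm hmM hcA (u := u) (z := ε)
          (by rw [hu]; ring) hεO
        exact ⟨z', (val_lt_one_iff _).2 ⟨hz', h2 hε0⟩, by rw [TXhom_apply, h1]; ring⟩ }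
  at₂ :=
    { unit := fun u hu => val₂_TX_eq_one hqM π hπ hm hmM hu
      cong := by
        rintro c u hc ⟨ε, hε, hu⟩
        have hcA : c ∈ A := mem_A_of_mem_R₂ hqM π hπ
          (((twoRed hqM π hπ).R₂.O.valuation_le_one_iff _).1 hc.le)
        obtain ⟨hεO, hε0⟩ := (val_lt_one_iff _).1 hε
        obtain ⟨z', hz', h1, h2⟩ := TX_cong₂ hqM π hπ hm hmM hcA (u := u) (z := ε)
          (by rw [hu]; ring) hεO
        exact ⟨z', (val_lt_one_iff _).2 ⟨hz', h2 hε0⟩, by rw [TXhom_apply, h1]; ring⟩ }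

theorem gal_smul_TXhom {N : ℕ} [NeZero N] (hm : m.Prime) (hmN : ¬ m ∣ N) (σ : GQ) (u : FN N) :
    gal N σ • TXhom N m u = TXhom N m (gal N σ • u) := gal_smul_TX hm hmN σ u

end Fermat.Agent.S40.HK
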