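import Fermat.Agent.SS.Top35.NormBC
import Fermat.Agent.SS.Mod.CuspOrdC
import Fermat.Agent.GAL.HeckeComm
import Fermat.Agent.SS.Mod.Compat

/-!
# S40 / HK : [HK-FORMAL] + [HK-SWAP]

`TX N m u := N_α (β u)` (`α, β : F_N → F_{N m}`) is the multiplicative Hecke operator `T_m^×` on functions: if `n D = div u` then
`n (T_m D) = div (TX u)` (`RED.ES.TDiv_apply_of_isDiv`).

* `IsTX ζ w z` : the `q`-expansion formula `z(t^m) = w(t^(m²)) ∏_b w(ζ^b t)`; `z` is determined by `w` (`IsTX.unique`), the relation is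
  multiplicative and compatible with ring homomorphisms.
* `isTX_coe`   : `IsTX ζ u (TX N m u)` on `q`-expansions at `∞` (any level `N`, `m` prime, `m ∤ N`).
* `IsTX.gauss`  : the formula passes to the Gauss reduction (any valuation ring `A` of `Kb`, `π : A → k`).
* `swAlg_TX`   : [HK-SWAP] the swap `w_q` of level `M q` commutes with `TX (M q) m`.
* `TX_mem_R₁`, `TX_mem_R₂` : [HK-FORMAL] for `SS.twoRed` at level `M q`: `u ∈ O_i ⟹ TX u ∈ O_i` and
  `IsTX ζ (red_i u) (red_i (TX u))`.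
* `TX_mem_level` : the same at the good level `M`.
* `red₁_TX_eq_level`, `red₂_TX_eq_level` : if `G ∈ F_M` (Gauss integral) and `u ∈ O_i ⊆ F_{M q}` have the same reduction then so do
  `TX M m G` and `TX (M q) m u`.
-/

set_option autoImplicit false
set_option linter.unusedSectionVars false
set_option linter.style.haveILetI false

noncomputable section

open ModularCurve AlgebraicCurve

namespace Fermat.Agent.S40.HK

open Fermat.Agent.RED hiding Kb
open Fermat.Agent.RED.ES Fermat.Agent.RED.Gauss Fermat.Agent.S24 Fermat.Agent.SS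
open Fermat.Agent.RED.Cusp (Fb jb)

section Formal

variable {R : Type*} [CommRing R] (m : ℕ) [NeZero m]

/-- the `q`-expansion formula of `T_m^×`. -/
def IsTX (ζ : Rˣ) (w z : LaurentSeries R) : Prop :=
  qExpand R m z = qExpand R m (qExpand R m w) * ∏ b ∈ Finset.range m, rotR (ζ ^ b) w

variable {m}

theorem IsTX.unique {ζ : Rˣ} {w z z' : LaurentSeries R} (h : IsTX m ζ w z) (h' : IsTX m ζ w z') :
    z = z' :=
  qExpand_injective (R := R) m (h.trans h'.symm)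

theorem IsTX.mul {ζ : Rˣ} {w z w' z' : LaurentSeries R} (h : IsTX m ζ w z)
    (h' : IsTX m ζ w' z') : IsTX m ζ (w * w') (z * z') := by
  unfold IsTX at *
  rw [map_mul, h, h', map_mul, map_mul]
  simp only [map_mul, Finset.prod_mul_distrib]
  ring

theorem IsTX.one (ζ : Rˣ) : IsTX m ζ (1 : LaurentSeries R) 1 := by
  unfold IsTX
  simp only [map_one, Finset.prod_const_one, mul_one]

theorem IsTX.map {R' : Type*} [CommRing R'] (φ : R →+* R') {ζ : Rˣ} {w z : LaurentSeries R}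
    (h : IsTX m ζ w z) : IsTX m (Units.map (φ : R →* R') ζ) (coeffMap φ w) (coeffMap φ z) := by
  unfold IsTX at *
  rw [← coeffMap_qExpand, h, map_mul, coeffMap_qExpand, coeffMap_qExpand, map_prod]
  congr 1
  refine Finset.prod_congr rfl fun b _ => ?_
  rw [coeffMap_rotR, map_pow]

theorem IsTX.exists [IsDomain R] (ζ : Rˣ) (hζ : IsPrimitiveRoot ζ m) (w : LaurentSeries R) :
    ∃ z, IsTX m ζ w z := by
  obtain ⟨W, hW⟩ := exists_qExpand_eq_prod_rotR m ζ hζ w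
  exact ⟨qExpand R m w * W, by unfold IsTX; rw [map_mul, hW]⟩

end Formal

section FormalField

variable {k : Type*} [Field k] {m : ℕ} [NeZero m]

theorem IsTX.ne_zero {ζ : kˣ} {w z : LaurentSeries k} (h : IsTX m ζ w z) (hw : w ≠ 0) : z ≠ 0 := by
  rintro rfl
  unfold IsTX at h
  rw [map_zero] at h
  have h1 : qExpand k m (qExpand k m w) ≠ 0 := by
    rw [Ne, map_eq_zero_iff _ (qExpand_injective (R := k) m),
      map_eq_zero_iff _ (qExpand_injective (R := k) m)]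
    exact hw
  have h2 : ∏ b ∈ Finset.range m, rotR (ζ ^ b) w ≠ 0 := by
    rw [Finset.prod_ne_zero_iff]
    intro b _
    rw [Ne, map_eq_zero_iff _ (rotR_injective _)]
    exact hw
  exact mul_ne_zero h1 h2 h.symm

theorem IsTX.of_mul {ζ : kˣ} {w z w' z' : LaurentSeries k} (h : IsTX m ζ (w * w') (z * z'))
    (h' : IsTX m ζ w' z') (hw' : w' ≠ 0) : IsTX m ζ w z := by
  have hz' : z' ≠ 0 := h'.ne_zero hw'
  unfold IsTX at *
  have h0 : qExpand k m z' ≠ 0 := by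
    rw [Ne, map_eq_zero_iff _ (qExpand_injective (R := k) m)]
    exact hz'
  apply mul_right_cancel₀ h0
  rw [← map_mul, h, h']
  simp only [map_mul, Finset.prod_mul_distrib]
  ring

theorem IsTX.div {ζ : kˣ} {w z w' z' : LaurentSeries k} (h : IsTX m ζ w z)
    (h' : IsTX m ζ w' z') (hw' : w' ≠ 0) : IsTX m ζ (w / w') (z / z') := by
  have hz' : z' ≠ 0 := h'.ne_zero hw'
  refine IsTX.of_mul (w' := w') (z' := z') ?_ h' hw'
  rw [div_mul_cancel₀ _ hw', div_mul_cancel₀ _ hz']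
  exact h

theorem IsTX.pow {R : Type*} [CommRing R] {ζ : Rˣ} {w z : LaurentSeries R} (h : IsTX m ζ w z)
    (n : ℕ) : IsTX m ζ (w ^ n) (z ^ n) := by
  induction n with
  | zero => simpa using IsTX.one ζ
  | succ n ih => rw [pow_succ, pow_succ]; exact ih.mul h

end FormalField

section Gauss

variable {L : Type*} [Field L] {A : ValuationSubring L} {k : Type*} [Field k] (π : A →+* k)
variable {m : ℕ} [NeZero m]

/-- the formula passes to the Gauss reduction. -/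
theorem IsTX.gauss (ζ : Aˣ) (hζ : IsPrimitiveRoot ζ m) {u z : LaurentSeries L}
    (h : IsTX m (Units.map (A.subtype : A →* L) ζ) u z) (hu : u ∈ bigO π) :
    ∃ hz : z ∈ bigO π,
      IsTX m (Units.map (π : A →* k) ζ) (bigRed π ⟨u, hu⟩) (bigRed π ⟨z, hz⟩) := by
  obtain ⟨a, b, hb, hab⟩ := id hu
  obtain ⟨a', ha'⟩ := IsTX.exists ζ hζ a
  obtain ⟨b', hb'⟩ := IsTX.exists ζ hζ b
  have hπb' : pi π b' ≠ 0 := (hb'.map π).ne_zero hb
  have h1 : IsTX m (Units.map (A.subtype : A →* L) ζ) (u * iota A b) (z * iota A b') :=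
    h.mul (hb'.map A.subtype)
  rw [hab] at h1
  have key : z * iota A b' = iota A a' := h1.unique (ha'.map A.subtype)
  have hz : z ∈ bigO π := ⟨a', b', hπb', key⟩
  refine ⟨hz, ?_⟩
  rw [bigRed_eq π ⟨z, hz⟩ hπb' key, bigRed_eq π ⟨u, hu⟩ hb hab]
  exact (ha'.map π).div (hb'.map π) hb

end Gauss

section Modular

variable (N m : ℕ) [NeZero N] [NeZero m]

/-- the multiplicative Hecke operator `T_m^×` on functions of level `N`. -/
def TX (u : FN N) : FN N :=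
  TorsES.normAlong (heckeAlphaBar Kb N m) (heckeBetaBar Kb N m u)

theorem TX_def (u : FN N) :
    TX N m u = TorsES.normAlong (heckeAlphaBar Kb N m) (heckeBetaBar Kb N m u) := rfl

theorem TX_mul (u v : FN N) : TX N m (u * v) = TX N m u * TX N m v := by
  unfold TX TorsES.normAlong
  rw [map_mul, map_mul]

theorem TX_one : TX N m 1 = 1 := by
  unfold TX TorsES.normAlong
  rw [map_one, map_one]

theorem TX_pow (u : FN N) (n : ℕ) : TX N m (u ^ n) = TX N m u ^ n := by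
  unfold TX TorsES.normAlong
  rw [map_pow, map_pow]

variable {N m}

/-- the `q`-expansion of `T_m^× u`. -/
theorem isTX_coe (hm : m.Prime) (hmN : ¬ m ∣ N) (ζ : Kbˣ) (hζ : IsPrimitiveRoot ζ m) (u : FN N) :
    IsTX m ζ (u : LaurentSeries Kb) ((TX N m u : FN N) : LaurentSeries Kb) :=
  qExpand_norm N m hm hmN ζ hζ u

theorem exists_zeta (m : ℕ) [NeZero m] : ∃ ζ : Kbˣ, IsPrimitiveRoot ζ m := by
  obtain ⟨ζ₀, hζ₀⟩ := HasEnoughRootsOfUnity.exists_primitiveRoot Kb m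
  exact ⟨(hζ₀.isUnit (NeZero.ne m)).unit, IsPrimitiveRoot.coe_units_iff.1 hζ₀⟩

/-- `TX u` is characterised by its `q`-expansion. -/
theorem TX_eq_of_isTX (hm : m.Prime) (hmN : ¬ m ∣ N) {ζ : Kbˣ} (hζ : IsPrimitiveRoot ζ m)
    {u z : FN N} (h : IsTX m ζ (u : LaurentSeries Kb) (z : LaurentSeries Kb)) : TX N m u = z :=
  Subtype.ext ((isTX_coe hm hmN ζ hζ u).unique h)

theorem isTX_C {R : Type*} [CommRing R] (ζ : Rˣ) (c : R) :
    IsTX m ζ (HahnSeries.C c : LaurentSeries R) (HahnSeries.C (c ^ (m + 1))) := by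
  unfold IsTX
  simp only [qExpand_C', rotR_C', Finset.prod_const, Finset.card_range]
  rw [← map_pow, ← map_mul, pow_succ']

theorem TX_algebraMap (hm : m.Prime) (hmN : ¬ m ∣ N) (c : Kb) :
    TX N m (algebraMap Kb (FN N) c) = algebraMap Kb (FN N) (c ^ (m + 1)) := by
  obtain ⟨ζ, hζ⟩ := exists_zeta m
  apply TX_eq_of_isTX hm hmN hζ
  rw [coe_algebraMap_FN, coe_algebraMap_FN]
  exact isTX_C ζ c

theorem TX_ne_zero (hm : m.Prime) (hmN : ¬ m ∣ N) {u : FN N} (hu : u ≠ 0) : TX N m u ≠ 0 := by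
  obtain ⟨ζ, hζ⟩ := exists_zeta m
  intro h
  exact (isTX_coe hm hmN ζ hζ u).ne_zero (fun h0 => hu (Subtype.ext h0)) (by rw [h]; rfl)

theorem TX_inv (hm : m.Prime) (hmN : ¬ m ∣ N) (u : FN N) : TX N m u⁻¹ = (TX N m u)⁻¹ := by
  rcases eq_or_ne u 0 with rfl | hu
  · have h0 : TX N m (0 : FN N) = 0 := by
      have := TX_algebraMap (N := N) hm hmN 0
      rwa [map_zero, zero_pow (Nat.succ_ne_zero m), map_zero] at this
    rw [inv_zero, h0, inv_zero]
  · apply eq_inv_of_mul_eq_one_left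
    rw [← TX_mul, inv_mul_cancel₀ hu, TX_one]

end Modular

section Swap

variable {M q m : ℕ} [NeZero M] [hq : Fact q.Prime] [NeZero m] (hqM : ¬ q ∣ M)

open Fermat.Agent.GAL.HeckeComm in
/-- **[HK-SWAP]** the swap `w_q` commutes with `T_m^×`. -/
theorem swAlg_TX (hm : m.Prime) (hmM : ¬ m ∣ M * q) (u : FN (M * q)) :
    swAlg M q hqM (TX (M * q) m u) = TX (M * q) m (swAlg M q hqM u) := by
  have hqm : q ≠ m := fun h => hmM (h ▸ dvd_mul_left q M)
  have h₂ : ¬ q ∣ M * m := by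
    intro h
    rcases (Nat.Prime.dvd_mul hq.out).1 h with h | h
    · exact hqM h
    · exact hqm ((Nat.prime_dvd_prime_iff_eq hq.out hm).1 h)
  have hlev : M * q * m = M * m * q := by ring
  set c1 : FN (M * q * m) →ₐ[Kb] FN (M * m * q) := castLevel hlev with hc1
  set c2 : FN (M * m * q) →ₐ[Kb] FN (M * q * m) := castLevel hlev.symm with hc2
  set eH : FN (M * q * m) →ₐ[Kb] FN (M * q * m) := c2.comp ((swAlg (M * m) q h₂).comp c1) with heH
  have hcoe : ∀ z, ((eH z : FN (M * q * m)) : LaurentSeries Kb) =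
      ((swAlg (M * m) q h₂ (c1 z) : FN (M * m * q)) : LaurentSeries Kb) := fun z =>
    coe_castLevel hlev.symm _
  have h12 : ∀ y, c1 (c2 y) = y := fun y =>
    Subtype.ext ((coe_castLevel hlev _).trans (coe_castLevel hlev.symm y))
  have h21 : ∀ y, c2 (c1 y) = y := fun y =>
    Subtype.ext ((coe_castLevel hlev.symm _).trans (coe_castLevel hlev y))
  have hinv : eH.comp eH = AlgHom.id Kb _ := by
    ext1 z
    simp only [heH, AlgHom.comp_apply, AlgHom.id_apply, h12, swAlg_swAlg, h21]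
  let e : FN (M * q * m) ≃ₐ[Kb] FN (M * q * m) := AlgEquiv.ofAlgHom eH eH hinv hinv
  have hα : ∀ a : FN (M * q), eH (heckeAlphaBar Kb (M * q) m a) =
      heckeAlphaBar Kb (M * q) m (swAlg M q hqM a) := by
    intro a
    apply Subtype.ext
    rw [hcoe, coe_swAlg_of_qExpand (c := 1) hqM h₂ (by rw [mul_one]; exact dvd_mul_right M m)
      (f := a) (g := c1 (heckeAlphaBar Kb (M * q) m a))
      (by rw [qExpand_one_apply, hc1, coe_castLevel, coe_heckeAlphaBar]),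
      qExpand_one_apply, coe_heckeAlphaBar]
  have hβ : ∀ a : FN (M * q), eH (heckeBetaBar Kb (M * q) m a) =
      heckeBetaBar Kb (M * q) m (swAlg M q hqM a) := by
    intro a
    apply Subtype.ext
    rw [hcoe, coe_swAlg_of_qExpand (c := m) hqM h₂ dvd_rfl
      (f := a) (g := c1 (heckeBetaBar Kb (M * q) m a))
      (by rw [hc1, coe_castLevel, coe_heckeBetaBar]), coe_heckeBetaBar]
  have key := @Algebra.norm_eq_of_equiv_equiv (FN (M * q)) (FN (M * q * m)) (FN (M * q))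
    (FN (M * q * m)) _ _ _ _ (algebraAlong (heckeAlphaBar Kb (M * q) m))
    (algebraAlong (heckeAlphaBar Kb (M * q) m)) (swEquiv hqM).toRingEquiv e.toRingEquiv (by
      refine RingHom.ext fun a => ?_
      exact (hα a).symm) (heckeBetaBar Kb (M * q) m u)
  have key' : TX (M * q) m u = (swEquiv hqM).symm (TX (M * q) m (swAlg M q hqM u)) := by
    refine key.trans ?_
    show (swEquiv hqM).symm _ = _
    congr 1
    show TorsES.normAlong (heckeAlphaBar Kb (M * q) m) (eH (heckeBetaBar Kb (M * q) m u)) = _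
    rw [hβ]
    rfl
  rw [key', ← swEquiv_apply, AlgEquiv.apply_symm_apply]

end Swap

section Two

variable {M q m : ℕ} [NeZero M] [hq : Fact q.Prime] [NeZero m] (hqM : ¬ q ∣ M)
variable {A : ValuationSubring Kb} {k : Type*} [Field k]
variable (π : A →+* k) [CharP k q] [IsAlgClosed k] (hπ : Function.Surjective π)

theorem isPrimitiveRoot_map_subtype {ζ : Aˣ} (hζ : IsPrimitiveRoot ζ m) :
    IsPrimitiveRoot (Units.map (A.subtype : A →* Kb) ζ) m :=
  hζ.map_of_injective (Units.map_injective (f := (A.subtype : A →* Kb)) A.subtype_injective)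

/-- a primitive `m`-th root of unity in `A`. -/
theorem exists_zetaA (A : ValuationSubring Kb) (m : ℕ) [NeZero m] :
    ∃ ζ : Aˣ, IsPrimitiveRoot ζ m := by
  obtain ⟨ζ, hζ⟩ := HasEnoughRootsOfUnity.exists_primitiveRoot Kb m
  have hζ1 : ζ ^ m = 1 := hζ.pow_eq_one
  have hζi : (ζ⁻¹) ^ m = 1 := by rw [inv_pow, hζ1, inv_one]
  have hζ0 : ζ ≠ 0 := hζ.ne_zero (NeZero.ne m)
  let ζA : Aˣ :=
    ⟨⟨ζ, mem_valuationSubring_of_pow_eq_one A (NeZero.ne m) hζ1⟩,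
      ⟨ζ⁻¹, mem_valuationSubring_of_pow_eq_one A (NeZero.ne m) hζi⟩,
      Subtype.ext (mul_inv_cancel₀ hζ0), Subtype.ext (inv_mul_cancel₀ hζ0)⟩
  refine ⟨ζA, ?_⟩
  have h1 : IsPrimitiveRoot (Units.map (A.subtype : A →* Kb) ζA) m := by
    rw [← IsPrimitiveRoot.coe_units_iff]
    exact hζ
  exact IsPrimitiveRoot.of_map_of_injective h1
    (Units.map_injective (f := (A.subtype : A →* Kb)) A.subtype_injective)

/-- converse of `SS.emb₁_mem_of_mem_R₁`. -/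
theorem mem_R₁_of_emb₁ {y : FN (M * q)} (hy : emb₁ M q y ∈ bigO π) :
    y ∈ (twoRed hqM π hπ).R₁.O := by
  by_contra hn
  have hy0 : y ≠ 0 := by
    rintro rfl
    exact hn (zero_mem _)
  have hinv : y⁻¹ ∈ (twoRed hqM π hπ).R₁.O :=
    ((twoRed hqM π hπ).R₁.O.mem_or_inv_mem y).resolve_left hn
  have hred : (twoRed hqM π hπ).R₁.red ⟨y⁻¹, hinv⟩ = 0 := by
    by_contra h0
    have := (twoRed hqM π hπ).R₁.inv_mem_of_red_ne_zero h0
    rw [inv_inv] at this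
    exact hn this
  obtain ⟨g, e⟩ := emb₁_mem_of_mem_R₁ hqM π hπ hinv
  rw [hred] at e
  have h1 : (⟨emb₁ M q y, hy⟩ : bigO π) * ⟨emb₁ M q y⁻¹, g⟩ = 1 := by
    apply Subtype.ext
    show emb₁ M q y * emb₁ M q y⁻¹ = 1
    rw [← map_mul, mul_inv_cancel₀ hy0, map_one]
  have h2 := congrArg (bigRed π) h1
  rw [map_mul, ← e, map_one] at h2
  simp at h2

/-- converse of `SS.emb₂_mem_of_mem_R₂`. -/
theorem mem_R₂_of_emb₂ {y : FN (M * q)} (hy : emb₂ M q hqM y ∈ bigO π) :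
    y ∈ (twoRed hqM π hπ).R₂.O := by
  by_contra hn
  have hy0 : y ≠ 0 := by
    rintro rfl
    exact hn (zero_mem _)
  have hinv : y⁻¹ ∈ (twoRed hqM π hπ).R₂.O :=
    ((twoRed hqM π hπ).R₂.O.mem_or_inv_mem y).resolve_left hn
  have hred : (twoRed hqM π hπ).R₂.red ⟨y⁻¹, hinv⟩ = 0 := by
    by_contra h0
    have := (twoRed hqM π hπ).R₂.inv_mem_of_red_ne_zero h0
    rw [inv_inv] at this
    exact hn this
  obtain ⟨g, e⟩ := emb₂_mem_of_mem_R₂ hqM π hπ hinv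
  rw [hred] at e
  have h1 : (⟨emb₂ M q hqM y, hy⟩ : bigO π) * ⟨emb₂ M q hqM y⁻¹, g⟩ = 1 := by
    apply Subtype.ext
    show emb₂ M q hqM y * emb₂ M q hqM y⁻¹ = 1
    rw [← map_mul, mul_inv_cancel₀ hy0, map_one]
  have h2 := congrArg (bigRed π) h1
  rw [map_mul, ← e, map_one] at h2
  simp at h2

theorem isTX_emb₁ (hm : m.Prime) (hmM : ¬ m ∣ M * q) (ζ : Kbˣ) (hζ : IsPrimitiveRoot ζ m)
    (u : FN (M * q)) : IsTX m ζ (emb₁ M q u) (emb₁ M q (TX (M * q) m u)) :=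
  isTX_coe hm hmM ζ hζ u

theorem isTX_emb₂ (hm : m.Prime) (hmM : ¬ m ∣ M * q) (ζ : Kbˣ) (hζ : IsPrimitiveRoot ζ m)
    (u : FN (M * q)) : IsTX m ζ (emb₂ M q hqM u) (emb₂ M q hqM (TX (M * q) m u)) := by
  rw [emb₂, AlgHom.comp_apply, AlgHom.comp_apply, swAlg_TX hqM hm hmM]
  exact isTX_coe hm hmM ζ hζ _

/-- **[HK-FORMAL]**, first valuation. -/
theorem TX_mem_R₁ (hm : m.Prime) (hmM : ¬ m ∣ M * q) (ζ : Aˣ) (hζ : IsPrimitiveRoot ζ m)
    {u : FN (M * q)} (hu : u ∈ (twoRed hqM π hπ).R₁.O) :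
    ∃ h : TX (M * q) m u ∈ (twoRed hqM π hπ).R₁.O,
      IsTX m (Units.map (π : A →* k) ζ)
        (((twoRed hqM π hπ).R₁.red ⟨u, hu⟩ : Fb k M) : LaurentSeries k)
        (((twoRed hqM π hπ).R₁.red ⟨_, h⟩ : Fb k M) : LaurentSeries k) := by
  obtain ⟨g, e⟩ := emb₁_mem_of_mem_R₁ hqM π hπ hu
  obtain ⟨hz, hz'⟩ := (isTX_emb₁ hm hmM _ (isPrimitiveRoot_map_subtype hζ) u).gauss π ζ hζ g
  have h := mem_R₁_of_emb₁ hqM π hπ hz
  obtain ⟨g', e'⟩ := emb₁_mem_of_mem_R₁ hqM π hπ h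
  exact ⟨h, by rw [e, e']; exact hz'⟩

/-- **[HK-FORMAL]**, second valuation. -/
theorem TX_mem_R₂ (hm : m.Prime) (hmM : ¬ m ∣ M * q) (ζ : Aˣ) (hζ : IsPrimitiveRoot ζ m)
    {u : FN (M * q)} (hu : u ∈ (twoRed hqM π hπ).R₂.O) :
    ∃ h : TX (M * q) m u ∈ (twoRed hqM π hπ).R₂.O,
      IsTX m (Units.map (π : A →* k) ζ)
        (((twoRed hqM π hπ).R₂.red ⟨u, hu⟩ : Fb k M) : LaurentSeries k)
        (((twoRed hqM π hπ).R₂.red ⟨_, h⟩ : Fb k M) : LaurentSeries k) := by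
  obtain ⟨g, e⟩ := emb₂_mem_of_mem_R₂ hqM π hπ hu
  obtain ⟨hz, hz'⟩ := (isTX_emb₂ hqM hm hmM _ (isPrimitiveRoot_map_subtype hζ) u).gauss π ζ hζ g
  have h := mem_R₂_of_emb₂ hqM π hπ hz
  obtain ⟨g', e'⟩ := emb₂_mem_of_mem_R₂ hqM π hπ h
  exact ⟨h, by rw [e, e']; exact hz'⟩

omit [CharP k q] [IsAlgClosed k] hq in
/-- **[HK-FORMAL]** at any level `N` (Gauss valuation of the expansion at `∞`). -/
theorem TX_mem_level {N : ℕ} [NeZero N] (hm : m.Prime) (hmN : ¬ m ∣ N) (ζ : Aˣ)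
    (hζ : IsPrimitiveRoot ζ m) {G : FN N} (hG : (G : LaurentSeries Kb) ∈ bigO π) :
    ∃ h : ((TX N m G : FN N) : LaurentSeries Kb) ∈ bigO π,
      IsTX m (Units.map (π : A →* k) ζ) (bigRed π ⟨_, hG⟩) (bigRed π ⟨_, h⟩) :=
  (isTX_coe hm hmN _ (isPrimitiveRoot_map_subtype hζ) G).gauss π ζ hζ hG

/-- the reductions of `T_m^×` at the levels `M q` (first valuation) and `M` are given by the same formula. -/
theorem red₁_TX_eq_level (hm : m.Prime) (hmM : ¬ m ∣ M * q)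
    {u : FN (M * q)} (hu : u ∈ (twoRed hqM π hπ).R₁.O) {G : FN M}
    (hG : (G : LaurentSeries Kb) ∈ bigO π)
    (h : (((twoRed hqM π hπ).R₁.red ⟨u, hu⟩ : Fb k M) : LaurentSeries k) = bigRed π ⟨_, hG⟩) :
    ∃ (h₁ : TX (M * q) m u ∈ (twoRed hqM π hπ).R₁.O)
      (h₂ : ((TX M m G : FN M) : LaurentSeries Kb) ∈ bigO π),
      (((twoRed hqM π hπ).R₁.red ⟨_, h₁⟩ : Fb k M) : LaurentSeries k) = bigRed π ⟨_, h₂⟩ := by
  obtain ⟨ζ, hζ⟩ := exists_zetaA A m
  obtain ⟨h₁, e₁⟩ := TX_mem_R₁ hqM π hπ hm hmM ζ hζ hu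
  obtain ⟨h₂, e₂⟩ := TX_mem_level π hm (fun h => hmM (h.mul_right q)) ζ hζ hG
  refine ⟨h₁, h₂, ?_⟩
  rw [h] at e₁
  exact e₁.unique e₂

/-- the reductions of `T_m^×` at the levels `M q` (second valuation) and `M` are given by the same formula. -/
theorem red₂_TX_eq_level (hm : m.Prime) (hmM : ¬ m ∣ M * q)
    {u : FN (M * q)} (hu : u ∈ (twoRed hqM π hπ).R₂.O) {G : FN M}
    (hG : (G : LaurentSeries Kb) ∈ bigO π)
    (h : (((twoRed hqM π hπ).R₂.red ⟨u, hu⟩ : Fb k M) : LaurentSeries k) = bigRed π ⟨_, hG⟩) :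
    ∃ (h₁ : TX (M * q) m u ∈ (twoRed hqM π hπ).R₂.O)
      (h₂ : ((TX M m G : FN M) : LaurentSeries Kb) ∈ bigO π),
      (((twoRed hqM π hπ).R₂.red ⟨_, h₁⟩ : Fb k M) : LaurentSeries k) = bigRed π ⟨_, h₂⟩ := by
  obtain ⟨ζ, hζ⟩ := exists_zetaA A m
  obtain ⟨h₁, e₁⟩ := TX_mem_R₂ hqM π hπ hm hmM ζ hζ hu
  obtain ⟨h₂, e₂⟩ := TX_mem_level π hm (fun h => hmM (h.mul_right q)) ζ hζ hG
  refine ⟨h₁, h₂, ?_⟩
  rw [h] at e₁
  exact e₁.unique e₂

/-- units for `v₁` are preserved. -/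
theorem red₁_TX_ne_zero (hm : m.Prime) (hmM : ¬ m ∣ M * q)
    {u : FN (M * q)} (hu : u ∈ (twoRed hqM π hπ).R₁.O)
    (h0 : (twoRed hqM π hπ).R₁.red ⟨u, hu⟩ ≠ 0) :
    ∃ h : TX (M * q) m u ∈ (twoRed hqM π hπ).R₁.O, (twoRed hqM π hπ).R₁.red ⟨_, h⟩ ≠ 0 := by
  obtain ⟨ζ, hζ⟩ := exists_zetaA A m
  obtain ⟨h₁, e₁⟩ := TX_mem_R₁ hqM π hπ hm hmM ζ hζ hu
  refine ⟨h₁, fun h => ?_⟩
  exact e₁.ne_zero (fun h' => h0 (Subtype.ext h')) (by rw [h]; rfl)

/-- units for `v₂` are preserved. -/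
theorem red₂_TX_ne_zero (hm : m.Prime) (hmM : ¬ m ∣ M * q)
    {u : FN (M * q)} (hu : u ∈ (twoRed hqM π hπ).R₂.O)
    (h0 : (twoRed hqM π hπ).R₂.red ⟨u, hu⟩ ≠ 0) :
    ∃ h : TX (M * q) m u ∈ (twoRed hqM π hπ).R₂.O, (twoRed hqM π hπ).R₂.red ⟨_, h⟩ ≠ 0 := by
  obtain ⟨ζ, hζ⟩ := exists_zetaA A m
  obtain ⟨h₁, e₁⟩ := TX_mem_R₂ hqM π hπ hm hmM ζ hζ hu
  refine ⟨h₁, fun h => ?_⟩
  exact e₁.ne_zero (fun h' => h0 (Subtype.ext h')) (by rw [h]; rfl)

end Two

section Gal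

variable {N m : ℕ} [NeZero N] [NeZero m]

/-- `T_m^×` is defined over `ℚ`. -/
theorem gal_smul_TX (hm : m.Prime) (hmN : ¬ m ∣ N) (σ : GQ) (u : FN N) :
    gal N σ • TX N m u = TX N m (gal N σ • u) := by
  obtain ⟨ζ, hζ⟩ := exists_zeta m
  have hζ' : IsPrimitiveRoot (Units.map ((σ : Kb →+* Kb) : Kb →* Kb) ζ) m :=
    hζ.map_of_injective (Units.map_injective (f := ((σ : Kb →+* Kb) : Kb →* Kb)) σ.injective)
  refine (TX_eq_of_isTX hm hmN hζ' ?_).symm
  rw [coe_gal_smul, coe_gal_smul]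
  exact (isTX_coe hm hmN ζ hζ u).map (σ : Kb →+* Kb)

theorem TX_const_mul (hm : m.Prime) (hmN : ¬ m ∣ N) (c : Kb) (u : FN N) :
    TX N m (algebraMap Kb (FN N) c * u) = algebraMap Kb (FN N) (c ^ (m + 1)) * TX N m u := by
  rw [TX_mul, TX_algebraMap hm hmN]

end Gal

end Fermat.Agent.S40.HK
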