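import Fermat.Agent.S40.HK.Formal

/-!
# S40 / HK : the congruence form of [HK-FORMAL]

`u = 1 + ε z`, `ε` a constant of `A`, `z ∈ O_i`  ⟹  `T_m^× u = 1 + ε z'`, `z' ∈ O_i`, and `red_i z = 0 → red_i z' = 0`.

* `cong_formal`     : the statement for Laurent series over a domain, modulo an ideal `J` stable under `t ↦ t^m`, `t ↦ u t`.
* `IsTX.gauss_cong` : for the Gauss ring `bigO π`.
* `TX_cong₁`, `TX_cong₂` : for `SS.twoRed`.
-/

set_option autoImplicit false
set_option linter.unusedSectionVars false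
set_option linter.style.haveILetI false

noncomputable section

open ModularCurve AlgebraicCurve

namespace Fermat.Agent.S40.HK

open Fermat.Agent.RED hiding Kb
open Fermat.Agent.RED.ES Fermat.Agent.RED.Gauss Fermat.Agent.S24 Fermat.Agent.SS
open Fermat.Agent.RED.Cusp (Fb jb)

section Formal

variable {R : Type*} [CommRing R] [IsDomain R] {m : ℕ} [NeZero m]

theorem cong_formal (ζ : Rˣ) {ε : R} (hε : ε ≠ 0) (J : Ideal (LaurentSeries R))
    (hJE : ∀ x ∈ J, qExpand R m x ∈ J) (hJr : ∀ (u : Rˣ), ∀ x ∈ J, rotR u x ∈ J)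
    {a b b' x' : LaurentSeries R} (ha : a ∈ J) (hb : IsTX m ζ b b')
    (hx : IsTX m ζ (b + HahnSeries.C ε * a) x') :
    ∃ c' : LaurentSeries R, x' = b' + HahnSeries.C ε * c' ∧ qExpand R m c' ∈ J := by
  set J' : Ideal (LaurentSeries R) := Ideal.span {HahnSeries.C ε} * J with hJ'
  have hmem : ∀ y ∈ J, HahnSeries.C ε * y ∈ J' := fun y hy =>
    Ideal.mul_mem_mul (Ideal.mem_span_singleton_self _) hy
  have key : qExpand R m x' - qExpand R m b' ∈ J' := by
    unfold IsTX at hx hb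
    rw [hx, hb, ← Ideal.Quotient.eq, map_mul, map_mul, map_prod, map_prod]
    congr 1
    · rw [Ideal.Quotient.eq]
      have : qExpand R m (qExpand R m (b + HahnSeries.C ε * a)) - qExpand R m (qExpand R m b) =
          HahnSeries.C ε * qExpand R m (qExpand R m a) := by
        simp only [map_add, map_mul, qExpand_C']
        ring
      rw [this]
      exact hmem _ (hJE _ (hJE _ ha))
    · refine Finset.prod_congr rfl fun j _ => ?_
      rw [Ideal.Quotient.eq]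
      have : rotR (ζ ^ j) (b + HahnSeries.C ε * a) - rotR (ζ ^ j) b =
          HahnSeries.C ε * rotR (ζ ^ j) a := by
        simp only [map_add, map_mul, rotR_C']
        ring
      rw [this]
      exact hmem _ (hJr _ _ ha)
  obtain ⟨c, hcJ, hc⟩ := Ideal.mem_span_singleton_mul.1 key
  have hc0 : ∀ n : ℤ, ¬ (m : ℤ) ∣ n → c.coeff n = 0 := by
    intro n hn
    have h1 := congrArg (fun z => z.coeff n) hc
    simp only [HahnSeries.C_mul_eq_smul, HahnSeries.coeff_smul, HahnSeries.coeff_sub,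
      qExpand_coeff_of_not_dvd m _ hn, sub_zero, smul_eq_mul] at h1
    exact (mul_eq_zero.1 h1).resolve_left hε
  have hcE : qExpand R m (qContract m c) = c := by
    ext n
    by_cases hn : (m : ℤ) ∣ n
    · obtain ⟨j, rfl⟩ := hn
      rw [qExpand_coeff_mul, qContract_coeff]
    · rw [qExpand_coeff_of_not_dvd m _ hn, hc0 n hn]
  refine ⟨qContract m c, ?_, by rw [hcE]; exact hcJ⟩
  apply qExpand_injective (R := R) m
  rw [map_add, map_mul, qExpand_C', hcE, hc]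
  ring

end Formal

section Gauss

variable {L : Type*} [Field L] {A : ValuationSubring L} {k : Type*} [Field k] (π : A →+* k)
variable {m : ℕ} [NeZero m]

theorem iota_C (c : A) : iota A (HahnSeries.C c) = HahnSeries.C (c : L) := by
  rw [iota, HahnSeries.C_apply, coeffMap_single, HahnSeries.C_apply]
  rfl

/-- the congruence form for the Gauss ring. -/
theorem IsTX.gauss_cong (ζ : Aˣ) (hζ : IsPrimitiveRoot ζ m) (ε : A) {u w z : LaurentSeries L}
    (h : IsTX m (Units.map (A.subtype : A →* L) ζ) u w)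
    (hu : u = 1 + HahnSeries.C (ε : L) * z) (hz : z ∈ bigO π) :
    ∃ (z' : LaurentSeries L) (hz' : z' ∈ bigO π), w = 1 + HahnSeries.C (ε : L) * z' ∧
      (bigRed π ⟨z, hz⟩ = 0 → bigRed π ⟨z', hz'⟩ = 0) := by
  rcases eq_or_ne ε 0 with rfl | hε
  · refine ⟨0, zero_mem _, ?_, fun _ => map_zero _⟩
    rw [mul_zero, add_zero]
    rw [ZeroMemClass.coe_zero, map_zero, zero_mul, add_zero] at hu
    rw [hu] at h
    exact h.unique (IsTX.one _)
  obtain ⟨a, b, hb, hab⟩ := id hz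
  obtain ⟨b', hb'⟩ := IsTX.exists ζ hζ b
  obtain ⟨x', hx'⟩ := IsTX.exists ζ hζ (b + HahnSeries.C ε * a)
  have hπb' : pi π b' ≠ 0 := (hb'.map π).ne_zero hb
  have hιb' : iota A b' ≠ 0 := iota_ne_zero_of_pi_ne_zero π hπb'
  have h1 : IsTX m (Units.map (A.subtype : A →* L) ζ) (u * iota A b) (w * iota A b') :=
    h.mul (hb'.map A.subtype)
  have h2 : u * iota A b = iota A (b + HahnSeries.C ε * a) := by
    rw [hu, map_add, map_mul, iota_C, ← hab]
    ring
  rw [h2] at h1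
  have key : w * iota A b' = iota A x' := h1.unique (hx'.map A.subtype)
  have fin : ∀ c' : LaurentSeries A, x' = b' + HahnSeries.C ε * c' →
      w = 1 + HahnSeries.C (ε : L) * (iota A c' / iota A b') := by
    intro c' hc'
    rw [hc', map_add, map_mul, iota_C] at key
    field_simp
    rw [key]
  by_cases hπa : pi π a = 0
  · obtain ⟨c', hc', hc'J⟩ := cong_formal ζ hε (RingHom.ker (pi π))
      (fun x hx => by
        rw [RingHom.mem_ker] at hx ⊢
        rw [pi, coeffMap_qExpand]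
        rw [pi] at hx
        rw [hx, map_zero])
      (fun v x hx => by
        rw [RingHom.mem_ker] at hx ⊢
        rw [pi, coeffMap_rotR]
        rw [pi] at hx
        rw [hx, map_zero])
      (RingHom.mem_ker.2 hπa) hb' hx'
    refine ⟨_, div_mem_bigO π c' hπb', fin c' hc', fun _ => ?_⟩
    rw [bigRed_div π c' hπb']
    rw [RingHom.mem_ker, pi, coeffMap_qExpand] at hc'J
    have : coeffMap π c' = 0 := qExpand_injective (R := k) m (by rw [hc'J, map_zero])
    rw [pi, this, zero_div]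
  · obtain ⟨c', hc', -⟩ := cong_formal ζ hε ⊤ (fun _ _ => Submodule.mem_top)
      (fun _ _ _ => Submodule.mem_top) (a := a) Submodule.mem_top hb' hx'
    refine ⟨_, div_mem_bigO π c' hπb', fin c' hc', fun h0 => ?_⟩
    exfalso
    rw [bigRed_eq π ⟨z, hz⟩ hb hab, div_eq_zero_iff] at h0
    exact h0.elim hπa hb

end Gauss

section RedDataAux

variable {K F k Fb : Type*} [Field K] [Field F] [Algebra K F] [Field k] [Field Fb] [Algebra k Fb]

theorem val_lt_one_iff (R : RedData K F k Fb) {x : F} :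
    R.O.valuation x < 1 ↔ ∃ h : x ∈ R.O, R.red ⟨x, h⟩ = 0 := by
  constructor
  · intro hx
    have h : x ∈ R.O := (R.O.valuation_le_one_iff x).1 hx.le
    refine ⟨h, ?_⟩
    by_contra h0
    have hu := R.isUnit_of_red_ne_zero ⟨x, h⟩ h0
    have := (R.O.valuation_eq_one_iff ⟨x, h⟩).1 hu
    exact absurd this hx.ne
  · rintro ⟨h, h0⟩
    refine lt_of_le_of_ne ((R.O.valuation_le_one_iff x).2 h) fun h1 => ?_
    have hu : IsUnit (⟨x, h⟩ : R.O) := (R.O.valuation_eq_one_iff ⟨x, h⟩).2 h1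
    exact (hu.map R.red).ne_zero h0

theorem val_eq_one_iff (R : RedData K F k Fb) {x : F} :
    R.O.valuation x = 1 ↔ ∃ h : x ∈ R.O, R.red ⟨x, h⟩ ≠ 0 := by
  constructor
  · intro hx
    have h : x ∈ R.O := (R.O.valuation_le_one_iff x).1 hx.le
    exact ⟨h, (((R.O.valuation_eq_one_iff ⟨x, h⟩).2 hx).map R.red).ne_zero⟩
  · rintro ⟨h, h0⟩
    exact (R.O.valuation_eq_one_iff ⟨x, h⟩).1 (R.isUnit_of_red_ne_zero ⟨x, h⟩ h0)

end RedDataAux

section Two

variable {M q m : ℕ} [NeZero M] [hq : Fact q.Prime] [NeZero m] (hqM : ¬ q ∣ M)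
variable {A : ValuationSubring Kb} {k : Type*} [Field k]
variable (π : A →+* k) [CharP k q] [IsAlgClosed k] (hπ : Function.Surjective π)

omit hq [CharP k q] [IsAlgClosed k] in
/-- the common part of `TX_cong₁`, `TX_cong₂`. -/
theorem cong_aux {N : ℕ} [NeZero N] {Fb' : Type*} [Field Fb'] [Algebra k Fb']
    (ι : Fb' →+* LaurentSeries k) (R : RedData Kb (FN N) k Fb')
    (emb : FN N →ₐ[Kb] LaurentSeries Kb)
    (h1 : ∀ {y : FN N} (hy : y ∈ R.O), ∃ h : emb y ∈ bigO π, ι (R.red ⟨y, hy⟩) = bigRed π ⟨_, h⟩)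
    (h2 : ∀ {y : FN N}, emb y ∈ bigO π → y ∈ R.O)
    (h3 : ∀ ζ : Kbˣ, IsPrimitiveRoot ζ m → ∀ u, IsTX m ζ (emb u) (emb (TX N m u)))
    {c : Kb} (hc : c ∈ A) {u z : FN N} (hu : u = 1 + algebraMap Kb _ c * z) (hz : z ∈ R.O) :
    ∃ (z' : FN N) (hz' : z' ∈ R.O), TX N m u = 1 + algebraMap Kb _ c * z' ∧
      (R.red ⟨z, hz⟩ = 0 → R.red ⟨z', hz'⟩ = 0) := by
  obtain ⟨ζ, hζ⟩ := exists_zetaA A m
  obtain ⟨g, e⟩ := h1 hz
  have hC : ∀ a : Kb, emb (algebraMap Kb _ a) = HahnSeries.C a := fun a => by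
    rw [AlgHom.commutes, S28.algebraMap_laurent_eq_C]
  have hu' : emb u = 1 + HahnSeries.C ((⟨c, hc⟩ : A) : Kb) * emb z := by
    rw [hu, map_add, map_one, map_mul, hC]
  obtain ⟨z1, hz1, hw, hred⟩ :=
    (h3 _ (isPrimitiveRoot_map_subtype hζ) u).gauss_cong π ζ hζ ⟨c, hc⟩ hu' g
  rcases eq_or_ne c 0 with rfl | hc0
  · refine ⟨0, zero_mem _, ?_, fun _ => map_zero _⟩
    rw [map_zero, zero_mul, add_zero] at hu
    rw [hu, TX_one, mul_zero, add_zero]
  have hcF : algebraMap Kb (FN N) c ≠ 0 := by rw [Ne, map_eq_zero]; exact hc0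
  have hCc : (HahnSeries.C c : LaurentSeries Kb) ≠ 0 := by rw [← hC]; rw [Ne, map_eq_zero]; exact hcF
  set z' : FN N := (TX N m u - 1) / algebraMap Kb _ c with hz'def
  have hemb : emb z' = z1 := by
    rw [hz'def, map_div₀, map_sub, map_one, hC, hw]
    show (1 + HahnSeries.C c * z1 - 1) / HahnSeries.C c = z1
    field_simp
    ring
  have hz' : z' ∈ R.O := h2 (by rw [hemb]; exact hz1)
  refine ⟨z', hz', ?_, fun h0 => ?_⟩
  · rw [hz'def]
    field_simp
    ring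
  · obtain ⟨g', e'⟩ := h1 hz'
    have e0 : bigRed π ⟨emb z, g⟩ = 0 := by rw [← e, h0, map_zero]
    have e1 : bigRed π ⟨emb z', g'⟩ = 0 := by
      have : (⟨emb z', g'⟩ : bigO π) = ⟨z1, hz1⟩ := Subtype.ext hemb
      rw [this]
      exact hred e0
    rw [e1] at e'
    exact (map_eq_zero ι).1 e'

/-- **congruence form**, first valuation. -/
theorem TX_cong₁ (hm : m.Prime) (hmM : ¬ m ∣ M * q) {c : Kb} (hc : c ∈ A) {u z : FN (M * q)}
    (hu : u = 1 + algebraMap Kb _ c * z) (hz : z ∈ (twoRed hqM π hπ).R₁.O) :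
    ∃ (z' : FN (M * q)) (hz' : z' ∈ (twoRed hqM π hπ).R₁.O),
      TX (M * q) m u = 1 + algebraMap Kb _ c * z' ∧
      ((twoRed hqM π hπ).R₁.red ⟨z, hz⟩ = 0 → (twoRed hqM π hπ).R₁.red ⟨z', hz'⟩ = 0) :=
  cong_aux π (Fb k M).val.toRingHom (twoRed hqM π hπ).R₁ (emb₁ M q)
    (fun hy => emb₁_mem_of_mem_R₁ hqM π hπ hy) (fun hy => mem_R₁_of_emb₁ hqM π hπ hy)
    (fun ζ hζ u => isTX_emb₁ hm hmM ζ hζ u) hc hu hz

/-- **congruence form**, second valuation. -/
theorem TX_cong₂ (hm : m.Prime) (hmM : ¬ m ∣ M * q) {c : Kb} (hc : c ∈ A) {u z : FN (M * q)}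
    (hu : u = 1 + algebraMap Kb _ c * z) (hz : z ∈ (twoRed hqM π hπ).R₂.O) :
    ∃ (z' : FN (M * q)) (hz' : z' ∈ (twoRed hqM π hπ).R₂.O),
      TX (M * q) m u = 1 + algebraMap Kb _ c * z' ∧
      ((twoRed hqM π hπ).R₂.red ⟨z, hz⟩ = 0 → (twoRed hqM π hπ).R₂.red ⟨z', hz'⟩ = 0) :=
  cong_aux π (Fb k M).val.toRingHom (twoRed hqM π hπ).R₂ (emb₂ M q hqM)
    (fun hy => emb₂_mem_of_mem_R₂ hqM π hπ hy) (fun hy => mem_R₂_of_emb₂ hqM π hπ hy)
    (fun ζ hζ u => isTX_emb₂ hqM hm hmM ζ hζ u) hc hu hz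

/-- `v₁ u = 1 → v₁ (T_m^× u) = 1`. -/
theorem val₁_TX_eq_one (hm : m.Prime) (hmM : ¬ m ∣ M * q) {u : FN (M * q)}
    (hu : (twoRed hqM π hπ).R₁.O.valuation u = 1) :
    (twoRed hqM π hπ).R₁.O.valuation (TX (M * q) m u) = 1 := by
  obtain ⟨h, h0⟩ := (val_eq_one_iff _).1 hu
  exact (val_eq_one_iff _).2 (red₁_TX_ne_zero hqM π hπ hm hmM h h0)

/-- `v₂ u = 1 → v₂ (T_m^× u) = 1`. -/
theorem val₂_TX_eq_one (hm : m.Prime) (hmM : ¬ m ∣ M * q) {u : FN (M * q)}
    (hu : (twoRed hqM π hπ).R₂.O.valuation u = 1) :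
    (twoRed hqM π hπ).R₂.O.valuation (TX (M * q) m u) = 1 := by
  obtain ⟨h, h0⟩ := (val_eq_one_iff _).1 hu
  exact (val_eq_one_iff _).2 (red₂_TX_ne_zero hqM π hπ hm hmM h h0)

omit hq [CharP k q] [IsAlgClosed k] in
theorem val_TX_aux {N : ℕ} [NeZero N] {Fb' : Type*} [Field Fb'] [Algebra k Fb']
    (R : RedData Kb (FN N) k Fb') (hm : m.Prime) (hmN : ¬ m ∣ N)
    (h : ∀ u : FN N, R.O.valuation u = 1 → R.O.valuation (TX N m u) = 1) (u : FN N) :
    R.O.valuation (TX N m u) = R.O.valuation u ^ (m + 1) := by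
  rcases eq_or_ne u 0 with rfl | hu
  · have h0 : TX N m (0 : FN N) = 0 := by
      have := TX_algebraMap (N := N) hm hmN 0
      rwa [map_zero, zero_pow (Nat.succ_ne_zero m), map_zero] at this
    rw [h0, map_zero, zero_pow (Nat.succ_ne_zero m)]
  obtain ⟨c, hc, hc0⟩ := R.exists_scale u hu
  have h1 : R.O.valuation (algebraMap Kb (FN N) c * u) = 1 := (val_eq_one_iff R).2 ⟨hc, hc0⟩
  have h2 := h _ h1
  rw [TX_const_mul hm hmN, map_mul, map_pow, map_pow] at h2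
  rw [map_mul] at h1
  have h3 : R.O.valuation (algebraMap Kb (FN N) c) ≠ 0 := by
    intro h0
    rw [h0, zero_mul] at h1
    exact zero_ne_one h1
  have h4 : R.O.valuation u = (R.O.valuation (algebraMap Kb (FN N) c))⁻¹ :=
    eq_inv_of_mul_eq_one_right h1
  rw [h4, inv_pow]
  exact eq_inv_of_mul_eq_one_right h2

/-- (A2) `v₁ (T_m^× u) = v₁ u ^ (m + 1)`. -/
theorem val₁_TX (hm : m.Prime) (hmM : ¬ m ∣ M * q) (u : FN (M * q)) :
    (twoRed hqM π hπ).R₁.O.valuation (TX (M * q) m u) =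
      (twoRed hqM π hπ).R₁.O.valuation u ^ (m + 1) :=
  val_TX_aux _ hm hmM (fun _ hu => val₁_TX_eq_one hqM π hπ hm hmM hu) u

/-- (A2) `v₂ (T_m^× u) = v₂ u ^ (m + 1)`. -/
theorem val₂_TX (hm : m.Prime) (hmM : ¬ m ∣ M * q) (u : FN (M * q)) :
    (twoRed hqM π hπ).R₂.O.valuation (TX (M * q) m u) =
      (twoRed hqM π hπ).R₂.O.valuation u ^ (m + 1) :=
  val_TX_aux _ hm hmM (fun _ hu => val₂_TX_eq_one hqM π hπ hm hmM hu) u

end Two

section Levels

variable {N N' m : ℕ} [NeZero N] [NeZero N'] [NeZero m]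

/-- (A6) the same Laurent series at two levels have the same `T_m^×`. -/
theorem coe_TX_eq_of_coe_eq (hm : m.Prime) (hmN : ¬ m ∣ N) (hmN' : ¬ m ∣ N') {u : FN N}
    {u' : FN N'} (h : (u' : LaurentSeries Kb) = (u : LaurentSeries Kb)) :
    ((TX N' m u' : FN N') : LaurentSeries Kb) = ((TX N m u : FN N) : LaurentSeries Kb) := by
  obtain ⟨ζ, hζ⟩ := exists_zeta m
  have h1 := isTX_coe hm hmN' ζ hζ u'
  rw [h] at h1
  exact h1.unique (isTX_coe hm hmN ζ hζ u)

/-- `T_m^×` commutes with `B_c : t ↦ t ^ c`, `m ∤ c`. -/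
theorem coe_TX_eq_of_coe_eq_qExpand (hm : m.Prime) (hmN : ¬ m ∣ N) (hmN' : ¬ m ∣ N') {c : ℕ}
    [NeZero c] (hmc : ¬ m ∣ c) {u : FN N} {u' : FN N'}
    (h : (u' : LaurentSeries Kb) = qExpand Kb c (u : LaurentSeries Kb)) :
    ((TX N' m u' : FN N') : LaurentSeries Kb) =
      qExpand Kb c ((TX N m u : FN N) : LaurentSeries Kb) := by
  obtain ⟨ζ, hζ⟩ := exists_zeta m
  have hζc : IsPrimitiveRoot (ζ ^ c) m :=
    hζ.pow_of_coprime c ((Nat.Prime.coprime_iff_not_dvd hm).mpr hmc).symm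
  have h1 := isTX_coe hm hmN' ζ hζ u'
  have h2 := isTX_coe hm hmN (ζ ^ c) hζc u
  refine h1.unique ?_
  unfold IsTX at h2 ⊢
  rw [qExpand_comm', h2, map_mul, map_prod, h, qExpand_comm' c m, qExpand_comm' c m]
  congr 1
  refine Finset.prod_congr rfl fun b _ => ?_
  rw [rotR_qExpand_pow, ← pow_mul, ← pow_mul, mul_comm b c]

end Levels

end Fermat.Agent.S40.HK
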